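import Mathlib
import Fermat.Prelude.Def_GaloisRep_Residual
import Fermat.Prelude.Def_GaloisRep_Adic

/-!
# Base change of residual representations preserves attachment and unramifiedness
-/

set_option autoImplicit false
set_option linter.style.haveILetI false

namespace Fermat.Agent.S29aux

open Polynomial TensorProduct

variable {k k' : Type} [Field k] [Field k']

lemma isUnramifiedAt_baseChangeAlong (ψ : k →+* k') (ρ : ResidualGaloisRep k) {q : ℕ}
    (h : ρ.IsUnramifiedAt q) : (ρ.baseChangeAlong ψ).IsUnramifiedAt q := by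
  intro A hA σ hσ
  letI : Algebra k k' := ψ.toAlgebra
  show (ρ.ρ σ).baseChange k' = 1
  rw [h A hA σ hσ, LinearMap.baseChange_one]

lemma charpoly_baseChangeAlong (ψ : k →+* k') (ρ : ResidualGaloisRep k)
    (σ : AlgebraicClosure ℚ ≃ₐ[ℚ] AlgebraicClosure ℚ) :
    LinearMap.charpoly ((ρ.baseChangeAlong ψ).ρ σ) = (LinearMap.charpoly (ρ.ρ σ)).map ψ := by
  letI : Algebra k k' := ψ.toAlgebra
  show LinearMap.charpoly ((ρ.ρ σ).baseChange k') = _
  rw [LinearMap.charpoly_baseChange]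
  rfl

lemma isAttachedTo_baseChangeAlong (ψ : k →+* k') (ρ : ResidualGaloisRep k) {N : ℕ}
    {g : CuspForm (CongruenceSubgroup.Gamma0 N) 2} (φ : integralClosure ℤ ℂ →+* k)
    (h : ρ.IsAttachedTo g φ) : (ρ.baseChangeAlong ψ).IsAttachedTo g (ψ.comp φ) := by
  intro ℓ hℓ hℓN hℓk A hA σ hσ
  have hℓk' : (ℓ : k) ≠ 0 := by
    intro h0
    apply hℓk
    rw [← map_natCast ψ ℓ, h0, map_zero]
  obtain ⟨a, ha, hchar⟩ := h ℓ hℓ hℓN hℓk' A hA σ hσ
  refine ⟨a, ha, ?_⟩
  rw [charpoly_baseChangeAlong, hchar]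
  simp

/-- characteristic polynomial of the residual representation -/
lemma charpoly_residual {A : Type} [CommRing A] [IsLocalRing A] (ρ : GaloisRepAdic A)
    (σ : AlgebraicClosure ℚ ≃ₐ[ℚ] AlgebraicClosure ℚ) :
    LinearMap.charpoly (ρ.residual.ρ σ) =
      (LinearMap.charpoly (ρ.ρ σ)).map (IsLocalRing.residue A) := by
  show LinearMap.charpoly ((ρ.ρ σ).baseChange (IsLocalRing.ResidueField A)) = _
  rw [LinearMap.charpoly_baseChange]
  rfl

lemma isUnramifiedAt_residual {A : Type} [CommRing A] [IsLocalRing A] (ρ : GaloisRepAdic A)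
    {q : ℕ} (h : ρ.IsUnramifiedAt q) : ρ.residual.IsUnramifiedAt q := by
  intro P hP σ hσ
  show (ρ.ρ σ).baseChange (IsLocalRing.ResidueField A) = 1
  rw [h P hP σ hσ, LinearMap.baseChange_one]

end Fermat.Agent.S29aux
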