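import Fermat.Agent.HeckeEigen.Forms

/-!
# The character of the Hecke algebra attached to a normalised eigenform
-/

set_option autoImplicit false

namespace Fermat.Agent.S29aux

open CongruenceSubgroup ModularFormClass FermatAgent.HeckeEigen

variable {N : ℕ} [NeZero N] {g : CuspForm (Gamma0 N) 2}

lemma heckeAlgebra_apply_eq (hg : g.IsNormalizedEigenform) (S : Set ℕ)
    {t : Module.End ℂ (CuspForm (Gamma0 N) 2)} (ht : t ∈ CuspForm.heckeAlgebra N 2 S) :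
    t g = qCoeff ⇑(t g) 1 • g := by
  have key : ∃ c : ℂ, t g = c • g := by
    refine Algebra.adjoin_induction (p := fun t _ => ∃ c : ℂ, t g = c • g) ?_ ?_ ?_ ?_ ht
    · rintro T (⟨ℓ, hℓ, hℓN, -, rfl⟩ | ⟨q, hqN, hq, -, rfl⟩)
      · refine ⟨qCoeff ⇑g ℓ, ?_⟩
        have := heckeOp_eq_of_isNormalizedEigenform hg ⟨ℓ, hℓ⟩
        rwa [heckeOp_of_not_dvd (p := ⟨ℓ, hℓ⟩) hℓN] at this
      · refine ⟨qCoeff ⇑g q, ?_⟩
        have := heckeOp_eq_of_isNormalizedEigenform hg ⟨q, hq⟩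
        rwa [heckeOp_of_dvd (p := ⟨q, hq⟩) hqN] at this
    · intro r
      refine ⟨(r : ℂ), ?_⟩
      rw [Algebra.algebraMap_eq_smul_one, LinearMap.smul_apply, Module.End.one_apply]
      exact (Int.cast_smul_eq_zsmul ℂ r g).symm
    · rintro x y - - ⟨c, hc⟩ ⟨d, hd⟩
      exact ⟨c + d, by rw [LinearMap.add_apply, hc, hd, add_smul]⟩
    · rintro x y - - ⟨c, hc⟩ ⟨d, hd⟩
      exact ⟨c * d, by rw [Module.End.mul_apply, hd, map_smul, hc, smul_smul, mul_comm]⟩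
  obtain ⟨c, hc⟩ := key
  rw [hc, qCoeff_smul, hg.qCoeff_one, mul_one]

/-- The character of the Hecke algebra attached to a normalised eigenform. -/
noncomputable def eigenChar (hg : g.IsNormalizedEigenform) (S : Set ℕ) :
    CuspForm.heckeAlgebra N 2 S →+* ℂ where
  toFun t := qCoeff ⇑((t : Module.End ℂ (CuspForm (Gamma0 N) 2)) g) 1
  map_one' := by
    show qCoeff ⇑((1 : Module.End ℂ (CuspForm (Gamma0 N) 2)) g) 1 = 1
    rw [Module.End.one_apply, hg.qCoeff_one]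
  map_mul' s t := by
    show qCoeff ⇑(((s : Module.End ℂ (CuspForm (Gamma0 N) 2)) *
      (t : Module.End ℂ (CuspForm (Gamma0 N) 2))) g) 1 = _
    rw [Module.End.mul_apply]
    conv_lhs => rw [heckeAlgebra_apply_eq hg S t.2]
    rw [map_smul, qCoeff_smul, mul_comm]
  map_zero' := by
    show qCoeff ⇑((0 : Module.End ℂ (CuspForm (Gamma0 N) 2)) g) 1 = 0
    rw [LinearMap.zero_apply, qCoeff_zero]
  map_add' s t := by
    show qCoeff ⇑(((s : Module.End ℂ (CuspForm (Gamma0 N) 2)) +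
      (t : Module.End ℂ (CuspForm (Gamma0 N) 2))) g) 1 = _
    rw [LinearMap.add_apply, qCoeff_add]

lemma eigenChar_apply (hg : g.IsNormalizedEigenform) (S : Set ℕ)
    (t : CuspForm.heckeAlgebra N 2 S) :
    eigenChar hg S t = qCoeff ⇑((t : Module.End ℂ (CuspForm (Gamma0 N) 2)) g) 1 := rfl

lemma eigenChar_T (hg : g.IsNormalizedEigenform) (S : Set ℕ) {ℓ : ℕ} (hℓ : ℓ.Prime)
    (hℓN : ¬ ℓ ∣ N) (hℓS : ℓ ∉ S) :
    eigenChar hg S (CuspForm.heckeAlgebra.T hℓ hℓN hℓS) = qCoeff ⇑g ℓ := by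
  have h := heckeOp_eq_of_isNormalizedEigenform hg ⟨ℓ, hℓ⟩
  rw [heckeOp_of_not_dvd (p := ⟨ℓ, hℓ⟩) hℓN] at h
  rw [eigenChar_apply, CuspForm.heckeAlgebra.coe_T, h, qCoeff_smul, hg.qCoeff_one, mul_one]

lemma eigenChar_U (hg : g.IsNormalizedEigenform) (S : Set ℕ) {q : ℕ} (hq : q.Prime)
    (hqN : q ∣ N) (hqS : q ∉ S) :
    eigenChar hg S (CuspForm.heckeAlgebra.U hq hqN hqS) = qCoeff ⇑g q := by
  have h := heckeOp_eq_of_isNormalizedEigenform hg ⟨q, hq⟩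
  rw [heckeOp_of_dvd (p := ⟨q, hq⟩) hqN] at h
  rw [eigenChar_apply, CuspForm.heckeAlgebra.coe_U, h, qCoeff_smul, hg.qCoeff_one, mul_one]

end Fermat.Agent.S29aux
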