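import Mathlib

/-!
# Quotients of the ring of all algebraic integers by maximal ideals are algebraically closed
-/

set_option autoImplicit false

namespace Fermat.Agent.S29aux

open Polynomial

/-- The kernel of a ring homomorphism from `ℤ̄` to a field of characteristic `p` is maximal. -/
lemma ker_isMaximal {p : ℕ} (hp : p.Prime) {k : Type} [Field k] [CharP k p]
    (φ : integralClosure ℤ ℂ →+* k) : (RingHom.ker φ).IsMaximal := by
  haveI : (RingHom.ker φ).IsPrime := RingHom.ker_isPrime φ
  refine Ideal.isMaximal_of_isIntegral_of_isMaximal_comap (R := ℤ) (RingHom.ker φ) ?_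
  have hcomap : Ideal.comap (algebraMap ℤ (integralClosure ℤ ℂ)) (RingHom.ker φ) =
      Ideal.span {(p : ℤ)} := by
    ext n
    rw [Ideal.mem_comap, RingHom.mem_ker, Ideal.mem_span_singleton,
      ← CharP.intCast_eq_zero_iff k p n]
    simp
  rw [hcomap]
  haveI : Fact p.Prime := ⟨hp⟩
  exact (Int.ideal_span_isMaximal_of_prime p)

lemma isAlgClosed_quotient (𝔐 : Ideal (integralClosure ℤ ℂ)) [h𝔐 : 𝔐.IsMaximal] :
    letI := Ideal.Quotient.field 𝔐
    IsAlgClosed (integralClosure ℤ ℂ ⧸ 𝔐) := by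
  letI := Ideal.Quotient.field 𝔐
  refine IsAlgClosed.of_exists_root _ fun f hf hirr => ?_
  have hlift : f ∈ Polynomial.lifts (Ideal.Quotient.mk 𝔐) := by
    rw [Polynomial.mem_lifts]
    exact Polynomial.map_surjective _ Ideal.Quotient.mk_surjective f
  obtain ⟨g, hg, hdeg, hmonic⟩ := Polynomial.lifts_and_degree_eq_and_monic hlift hf
  have hdegf : f.degree ≠ 0 := hirr.degree_pos.ne'
  have hgdeg : (g.map (algebraMap (integralClosure ℤ ℂ) ℂ)).degree ≠ 0 := by
    rw [hmonic.degree_map, hdeg]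
    exact hdegf
  obtain ⟨z, hz⟩ := IsAlgClosed.exists_root _ hgdeg
  have hzint : IsIntegral (integralClosure ℤ ℂ) z := by
    refine ⟨g, hmonic, ?_⟩
    rwa [IsRoot.def, eval_map] at hz
  have hzint' : IsIntegral ℤ z := isIntegral_trans (R := ℤ) (A := integralClosure ℤ ℂ) z hzint
  let z' : integralClosure ℤ ℂ := ⟨z, hzint'⟩
  have hz' : g.eval z' = 0 := by
    have hinj : Function.Injective (algebraMap (integralClosure ℤ ℂ) ℂ) :=
      Subtype.val_injective
    apply hinj
    rw [map_zero]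
    have h1 := Polynomial.hom_eval₂ g (RingHom.id _) (algebraMap (integralClosure ℤ ℂ) ℂ) z'
    rw [RingHom.comp_id] at h1
    rw [Polynomial.eval, h1]
    rw [IsRoot.def, eval_map] at hz
    exact hz
  refine ⟨Ideal.Quotient.mk 𝔐 z', ?_⟩
  rw [← hg, eval_map, eval₂_hom, hz', map_zero]

end Fermat.Agent.S29aux
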