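import Mathlib

/-!
# The completion of a discrete valuation ring is a (complete) discrete valuation ring
-/

set_option autoImplicit false

namespace Fermat.Agent.S29aux

open IsLocalRing

section DVR

variable {R : Type} [CommRing R] [IsDomain R] [IsDiscreteValuationRing R]

local notation "Rhat" => AdicCompletion (maximalIdeal R) R

lemma algebraMap_completion_injective : Function.Injective (algebraMap R Rhat) := by
  have h : Function.Injective (AdicCompletion.of (maximalIdeal R) R) :=
    AdicCompletion.of_injective (maximalIdeal R) R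
  exact h

lemma exists_eq_pow_mul_unit {π : R} (hπ : Irreducible π) {x : Rhat} (hx : x ≠ 0) :
    ∃ (n : ℕ) (u : Rhatˣ), x = (algebraMap R Rhat π) ^ n * u := by
  classical
  have hmax : maximalIdeal Rhat = Ideal.span {algebraMap R Rhat π} := by
    rw [AdicCompletion.maximalIdeal_eq_map, hπ.maximalIdeal_eq, Ideal.map_span,
      Set.image_singleton]
  have hH : IsHausdorff (maximalIdeal Rhat) Rhat := inferInstance
  have hex : ∃ n : ℕ, x ∉ (maximalIdeal Rhat) ^ n := by
    by_contra hcon
    push Not at hcon
    apply hx
    refine hH.haus x fun n => ?_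
    rw [SModEq.zero, smul_eq_mul, Ideal.mul_top]
    exact hcon n
  have hn := Nat.find_spec hex
  set n := Nat.find hex with hndef
  have hn0 : n ≠ 0 := by
    intro h0
    rw [h0, pow_zero, Ideal.one_eq_top] at hn
    exact hn Submodule.mem_top
  obtain ⟨m, hm⟩ := Nat.exists_eq_succ_of_ne_zero hn0
  have hmem : x ∈ (maximalIdeal Rhat) ^ m := by
    have := Nat.find_min hex (m := m) (by omega)
    simpa using this
  rw [hmax, Ideal.span_singleton_pow, Ideal.mem_span_singleton'] at hmem
  obtain ⟨y, hy⟩ := hmem
  have hyu : IsUnit y := by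
    by_contra hyu
    have hy' : y ∈ maximalIdeal Rhat := (mem_maximalIdeal y).mpr hyu
    apply hn
    rw [hm, pow_succ', ← hy]
    refine Ideal.mul_mem_mul hy' ?_
    rw [hmax, Ideal.span_singleton_pow]
    exact Ideal.mem_span_singleton_self _
  obtain ⟨u, rfl⟩ := hyu
  exact ⟨m, u, by rw [← hy, mul_comm]⟩

instance completion_isDomain : IsDomain Rhat := by
  obtain ⟨π, hπ⟩ := IsDiscreteValuationRing.exists_irreducible R
  have hnt : Nontrivial Rhat := inferInstance
  have hnz : ∀ n : ℕ, (algebraMap R Rhat π) ^ n ≠ 0 := by
    intro n h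
    rw [← map_pow] at h
    exact pow_ne_zero n hπ.ne_zero
      ((injective_iff_map_eq_zero _).mp algebraMap_completion_injective _ h)
  have : NoZeroDivisors Rhat := by
    refine ⟨fun {a b} hab => ?_⟩
    by_contra hcon
    push Not at hcon
    obtain ⟨n, u, hu⟩ := exists_eq_pow_mul_unit hπ hcon.1
    obtain ⟨m, v, hv⟩ := exists_eq_pow_mul_unit hπ hcon.2
    have h1 : (algebraMap R Rhat π) ^ (n + m) * ((u * v : Rhatˣ) : Rhat) = 0 := by
      rw [← hab, hu, hv, Units.val_mul, pow_add]
      ring
    rw [Units.mul_left_eq_zero] at h1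
    exact hnz _ h1
  exact NoZeroDivisors.to_isDomain _

instance completion_isDVR : IsDiscreteValuationRing Rhat := by
  obtain ⟨π, hπ⟩ := IsDiscreteValuationRing.exists_irreducible R
  have hmax : maximalIdeal Rhat = Ideal.span {algebraMap R Rhat π} := by
    rw [AdicCompletion.maximalIdeal_eq_map, hπ.maximalIdeal_eq, Ideal.map_span,
      Set.image_singleton]
  have hne : algebraMap R Rhat π ≠ 0 := fun h => hπ.ne_zero
      ((injective_iff_map_eq_zero _).mp algebraMap_completion_injective _ h)
  have hprime : Prime (algebraMap R Rhat π) := by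
    rw [← Ideal.span_singleton_prime hne, ← hmax]
    infer_instance
  refine IsDiscreteValuationRing.ofHasUnitMulPowIrreducibleFactorization
    ⟨algebraMap R Rhat π, hprime.irreducible, fun {x} hx => ?_⟩
  obtain ⟨n, u, hu⟩ := exists_eq_pow_mul_unit hπ hx
  exact ⟨n, u, hu.symm⟩

lemma completion_charZero [CharZero R] : CharZero Rhat :=
  charZero_of_injective_algebraMap algebraMap_completion_injective

lemma completion_finite_residueField [Finite (ResidueField R)] : Finite (ResidueField Rhat) :=
  Finite.of_surjective _ (AdicCompletion.residueField_map_bijective R).2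

end DVR

end Fermat.Agent.S29aux
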