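import Mathlib
import Fermat.Agent.S29.Completion
import Fermat.Agent.S29.AlgClosed

/-!
# A ring homomorphism from a finite `ℤ`-algebra to `ℤ̄`, followed by a residue map,
lifts to a complete discrete valuation ring.
-/

set_option autoImplicit false
set_option linter.style.haveILetI false

namespace Fermat.Agent.S29aux

open IsLocalRing

section

variable {T : Type} [CommRing T] [Module.Finite ℤ T] (χ : T →+* ℂ)

/-- The number field generated by the image of a finite `ℤ`-algebra. -/
noncomputable def heckeField : IntermediateField ℚ ℂ :=
  IntermediateField.adjoin ℚ (Set.range χ)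

lemma isIntegral_apply (t : T) : IsIntegral ℤ (χ t) :=
  (Algebra.IsIntegral.isIntegral (R := ℤ) t).map (χ.toIntAlgHom)

instance heckeField_finiteDimensional : FiniteDimensional ℚ (heckeField χ) := by
  obtain ⟨s, hs⟩ := (Module.finite_def (R := ℤ) (M := T)).mp inferInstance
  have hle : heckeField χ ≤ IntermediateField.adjoin ℚ (χ '' (s : Set T)) := by
    unfold heckeField
    rw [IntermediateField.adjoin_le_iff]
    rintro _ ⟨t, rfl⟩
    have ht : t ∈ Submodule.span ℤ (s : Set T) := by rw [hs]; exact Submodule.mem_top
    induction ht using Submodule.span_induction with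
    | mem x hx => exact IntermediateField.subset_adjoin ℚ _ ⟨x, hx, rfl⟩
    | zero => rw [map_zero]; exact zero_mem _
    | add x y _ _ hx hy => rw [map_add]; exact add_mem hx hy
    | smul a x _ hx =>
      rw [zsmul_eq_mul, map_mul, map_intCast]
      exact mul_mem (intCast_mem _ a) hx
  have hfin : (χ '' (s : Set T)).Finite := s.finite_toSet.image _
  haveI : Finite (χ '' (s : Set T)) := hfin
  haveI : FiniteDimensional ℚ (IntermediateField.adjoin ℚ (χ '' (s : Set T))) := by
    refine IntermediateField.finiteDimensional_adjoin ?_
    rintro _ ⟨t, -, rfl⟩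
    exact (isIntegral_apply χ t).tower_top
  exact Module.Finite.of_injective
    (IntermediateField.inclusion hle).toLinearMap (IntermediateField.inclusion hle).injective

instance heckeField_numberField : NumberField (heckeField χ) where

/-- The character with values in the ring of integers. -/
noncomputable def charInt : T →+* NumberField.RingOfIntegers (heckeField χ) :=
  (χ.codRestrict (heckeField χ).toSubfield
    (fun t => IntermediateField.subset_adjoin ℚ _ ⟨t, rfl⟩) : T →+* heckeField χ).codRestrict
    (integralClosure ℤ (heckeField χ)) (fun t => by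
      have h : IsIntegral ℤ ((algebraMap (heckeField χ) ℂ)
          ((χ.codRestrict (heckeField χ).toSubfield
    (fun t => IntermediateField.subset_adjoin ℚ _ ⟨t, rfl⟩) : T →+* heckeField χ) t)) :=
        isIntegral_apply χ t
      exact (isIntegral_algebraMap_iff (algebraMap (heckeField χ) ℂ).injective).mp h)

lemma coe_charInt (t : T) : (((charInt χ t : NumberField.RingOfIntegers (heckeField χ)) :
    heckeField χ) : ℂ) = χ t := rfl

/-- embedding of the ring of integers in `ℤ̄`. -/
noncomputable def intEmb (E : IntermediateField ℚ ℂ) :
    NumberField.RingOfIntegers E →+* integralClosure ℤ ℂ :=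
  ((algebraMap E ℂ).comp (algebraMap (NumberField.RingOfIntegers E) E)).codRestrict
    (integralClosure ℤ ℂ) (fun x => by
      have h : IsIntegral ℤ (algebraMap (NumberField.RingOfIntegers E) E x) :=
        NumberField.RingOfIntegers.isIntegral_coe x
      exact h.map (algebraMap E ℂ).toIntAlgHom)

lemma coe_intEmb (E : IntermediateField ℚ ℂ) (x : NumberField.RingOfIntegers E) :
    ((intEmb E x : integralClosure ℤ ℂ) : ℂ) = ((x : E) : ℂ) := rfl

end

end Fermat.Agent.S29aux
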