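import Mathlib
import Fermat.Agent.S29.NumberField

/-!
# Lifting a residue map of a ring of integers to a complete DVR
-/

set_option autoImplicit false
set_option linter.style.haveILetI false

namespace Fermat.Agent.S29aux

open IsLocalRing

theorem exists_completeDVR (E : Type) [Field E] [NumberField E] {p : ℕ} (hp : p.Prime)
    {K : Type} [Field K] [CharP K p] (φ : NumberField.RingOfIntegers E →+* K) :
    ∃ (O : Type) (_ : CommRing O) (_ : IsDomain O) (_ : IsDiscreteValuationRing O)
      (_ : IsAdicComplete (maximalIdeal O) O) (_ : Finite (ResidueField O)) (_ : CharZero O)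
      (j : NumberField.RingOfIntegers E →+* O) (ι : ResidueField O →+* K),
      (p : O) ∈ maximalIdeal O ∧ ∀ x, ι (residue O (j x)) = φ x := by
  set P : Ideal (NumberField.RingOfIntegers E) := RingHom.ker φ with hP
  haveI hPprime : P.IsPrime := RingHom.ker_isPrime φ
  have hpP : (p : NumberField.RingOfIntegers E) ∈ P := by
    rw [hP, RingHom.mem_ker, map_natCast, CharP.cast_eq_zero]
  have hPbot : P ≠ ⊥ := by
    intro h
    rw [h, Ideal.mem_bot] at hpP
    exact hp.ne_zero (by exact_mod_cast hpP)
  haveI hPmax : P.IsMaximal := hPprime.isMaximal hPbot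
  let R := Localization.AtPrime P
  haveI : IsDiscreteValuationRing R :=
    IsLocalization.AtPrime.isDiscreteValuationRing_of_dedekind_domain
      (NumberField.RingOfIntegers E) hPbot R
  have hinj : Function.Injective (algebraMap (NumberField.RingOfIntegers E) R) :=
    IsLocalization.injective R P.primeCompl_le_nonZeroDivisors
  haveI : CharZero R := charZero_of_injective_algebraMap hinj
  -- finiteness of the residue field
  haveI : Finite (NumberField.RingOfIntegers E ⧸ P) := Ideal.finiteQuotientOfFreeOfNeBot P hPbot
  haveI hfinR : Finite (ResidueField R) := by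
    refine Finite.of_surjective
      (IsLocalization.AtPrime.equivQuotMaximalIdeal P R) (RingEquiv.surjective _)
  -- extension of φ to R
  have hunit : ∀ s : P.primeCompl, IsUnit (φ s) := fun s => by
    rw [isUnit_iff_ne_zero]
    intro h
    exact s.2 h
  let φR : R →+* K := IsLocalization.lift (M := P.primeCompl) hunit
  have hφR : ∀ x, φR (algebraMap _ R x) = φ x := fun x => IsLocalization.lift_eq hunit x
  haveI hloc : IsLocalHom φR := by
    refine ⟨fun a ha => ?_⟩
    obtain ⟨⟨x, s⟩, hxs⟩ := IsLocalization.surj P.primeCompl a
    simp only at hxs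
    have hsu : IsUnit (algebraMap (NumberField.RingOfIntegers E) R s) :=
      IsLocalization.map_units R s
    have h1 : IsUnit (φ x) := by
      rw [← hφR, ← hxs, map_mul]
      exact ha.mul (hsu.map φR)
    have hx : x ∈ P.primeCompl := by
      intro hx
      rw [isUnit_iff_ne_zero] at h1
      exact h1 hx
    have hxu : IsUnit (algebraMap (NumberField.RingOfIntegers E) R x) :=
      IsLocalization.map_units R (⟨x, hx⟩ : P.primeCompl)
    rw [← hxs] at hxu
    exact isUnit_of_mul_isUnit_left hxu
  let ιR : ResidueField R →+* K := ResidueField.lift φR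
  let Rhat := AdicCompletion (maximalIdeal R) R
  let e : ResidueField R ≃+* ResidueField Rhat :=
    RingEquiv.ofBijective _ (AdicCompletion.residueField_map_bijective R)
  refine ⟨Rhat, inferInstance, inferInstance, inferInstance, inferInstance,
    completion_finite_residueField, completion_charZero,
    (algebraMap R Rhat).comp (algebraMap _ R), ιR.comp e.symm.toRingHom, ?_, ?_⟩
  · rw [mem_maximalIdeal, mem_nonunits_iff]
    intro hu
    have hu' : IsUnit (algebraMap R Rhat (p : R)) := by rwa [map_natCast]
    have h2 : IsUnit (p : R) := isUnit_of_map_unit (algebraMap R Rhat) _ hu'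
    have h3 := h2.map φR
    rw [map_natCast, CharP.cast_eq_zero] at h3
    exact not_isUnit_zero h3
  · intro x
    have h1 : e (residue R (algebraMap _ R x)) =
        residue Rhat (algebraMap R Rhat (algebraMap _ R x)) := rfl
    show ιR (e.symm (residue Rhat (algebraMap R Rhat (algebraMap _ R x)))) = φ x
    rw [← h1, RingEquiv.symm_apply_apply]
    show ResidueField.lift φR (residue R (algebraMap _ R x)) = φ x
    rw [ResidueField.lift_residue_apply, hφR]

end Fermat.Agent.S29aux
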